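import Fermat.Agent.S55.Cap.C2H713.Main
import Fermat.Agent.S55.GAD.DescH177.Main
import Fermat.Agent.S55.GAD.Gd5bH604

/-!
# S55 / A8 (CAP): `GlobalSpecCap` for the concrete tower datum, and `C2Spec`   (helper713)

* `clTorsion_datum`  : GD11 for `GAD.datum S p` (= GD5b, helper604);
* `descent_datum`    : GD12 for `GAD.datum S p` (= GAD-DESC, helper177), `S ≠ ∅`;
* `globalSpecCap_of` : the 7 leaf specs of `GAD/Spec.lean` ⇒ `Cap.GlobalSpecCap p S`;
* `c2Spec_of`        : the 7 leaf specs of `GAD/Spec.lean` ⇒ `Cap.C2Spec p S`.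
-/

set_option autoImplicit false
set_option linter.unusedVariables false
set_option linter.unusedSectionVars false

noncomputable section

namespace Fermat.Agent.S55.Cap.H713

open Fermat.Agent.S55.PT Fermat.Agent.S55.Tow Fermat.Agent.S55.Cap Fermat.Agent.S55.GAD

variable {S : Finset Nat.Primes} {p : ℕ}

/-- GD11 for the concrete datum. -/
theorem clTorsion_datum : ClTorsion (datum S p) :=
  Fermat.Agent.S55.GAD.H604.isTorsModLocal S p

/-- GD12 for the concrete datum. -/
theorem descent_datum (hS : S.Nonempty) (hD : (datum S p).IsGoodMu p) : Descent (datum S p) := by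
  intro L L' h c hc
  obtain ⟨c₀, hc₀⟩ := Fermat.Agent.S55.GAD.H177.exists_trT_eq_of_fixed h hS c hc
  refine ⟨L', le_rfl, c₀, ?_⟩
  rw [← hD.gd7b h le_rfl c₀]
  exact congrArg _ hc₀.symm

/-- a good concrete datum satisfies `GlobalSpecCap` -/
theorem globalSpecCap_of_isGoodMu (hS : S.Nonempty) (hD : (datum S p).IsGoodMu p) :
    GlobalSpecCap p S :=
  ⟨datum S p, hD, clTorsion_datum, descent_datum hS hD⟩

/-- The leaf specs of `GAD/Spec.lean` imply `Cap.GlobalSpecCap p S`. -/
theorem globalSpecCap_of (hS : S.Nonempty) (hSU : SUnitDictSpec S) (hTr : DivTrTransSpec S)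
    (hCap : CapitulationSpec S p) (hEx : ExistenceSpec S p) (hCM : ClassModuleSpec S p)
    (hJ : JInjSpec S p) (hInf : InfInjSpec S p) : GlobalSpecCap p S :=
  globalSpecCap_of_isGoodMu hS
    (Fermat.Agent.S55.GAD.H604.isGoodMu_of hSU hTr hCap hEx hCM hJ hInf)

/-- The leaf specs of `GAD/Spec.lean` imply leaf C2 of A8. -/
theorem c2Spec_of [Fact p.Prime] (hS : S.Nonempty) (hSU : SUnitDictSpec S)
    (hTr : DivTrTransSpec S) (hCap : CapitulationSpec S p) (hEx : ExistenceSpec S p)
    (hCM : ClassModuleSpec S p) (hJ : JInjSpec S p) (hInf : InfInjSpec S p) : C2Spec p S :=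
  c2Adapter p S (globalSpecCap_of hS hSU hTr hCap hEx hCM hJ hInf)

end Fermat.Agent.S55.Cap.H713
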