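import Fermat.Agent.S55.Cap.Spec

/-!
# S55 / A8 (CAP), leaves C1/C2 : the finite-level DICTIONARY   (helper713)

Reusable bridge between the big modules `𝔼 = SU S`, `𝕁 = JJS S` of `Cap/Mod.lean` and the finite
levels of the tower (`Tow.Level S`, `L.units`, `L.J q`), plus coefficient calculus in `IndM`.

* `coeff U x : IndM U X →+ X`, `coeff_smul`, `coeff_le`, `ofFun`, `exists_map_eq`;
* `JS L = ∀ q : S, (L.J q).V`, `toJJ L : JS L →+ JJS S` (inflation), injective, equivariant
  (`toJJ_ρ`), compatible with the transition maps (`toJJ_tr`), with the diagonal (`toJJ_diag`),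
  and onto the `L.U`-invariants (`exists_toJJ_eq`);
* `suOf L e : SU S` for an `S`-unit `e` of level `L`; `exists_suOf_eq` (an element of `𝔼` fixed
  by `L.U` comes from level `L`);
* `jSum D L : JS L →+ (D.C L).V`, equivariant (`jSum_ρ`), compatible with `tr` (`jSum_tr`),
  kernel = diagonal `S`-units (`jSum_eq_zero_iff`), `isLocalSum_iff`.
-/

set_option autoImplicit false
set_option linter.unusedVariables false
set_option linter.unusedSectionVars false
set_option linter.style.haveILetI false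

noncomputable section

namespace Fermat.Agent.S55.Cap.H713

open Fermat.Agent.S55.PT Fermat.Agent.S55.Tow Fermat.Agent.S55.Cap

/-! ### coefficients in `IndM` -/

section Coeff

variable {G : Type} [Group G] (U : Subgroup G) {X Y : Type} [AddCommGroup X] [AddCommGroup Y]

/-- the coefficient of `F ∈ Ind_U X` at the coset `x` -/
def coeff (x : G ⧸ U) : IndM U X →+ X := (Finsupp.applyAddHom x).comp (IndM.toF U)

lemma coeff_single [DecidableEq (G ⧸ U)] (x y : G ⧸ U) (a : X) :
    coeff U x (IndM.single U y a) = if y = x then a else 0 := by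
  show (Finsupp.single y a) x = _
  rw [Finsupp.single_apply]

lemma coeff_single_same (x : G ⧸ U) (a : X) : coeff U x (IndM.single U x a) = a := by
  classical
  rw [coeff_single, if_pos rfl]

lemma coeff_single_ne {x y : G ⧸ U} (h : y ≠ x) (a : X) : coeff U x (IndM.single U y a) = 0 := by
  classical
  rw [coeff_single, if_neg h]

variable {U} in
lemma ext_coeff {F F' : IndM U X} (h : ∀ x, coeff U x F = coeff U x F') : F = F' :=
  Finsupp.ext h

lemma coeff_map (φ : X →+ Y) (F : IndM U X) (x : G ⧸ U) :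
    coeff U x (IndM.map U φ F) = φ (coeff U x F) := rfl

lemma coeff_smul [DistribMulAction G X] (g : G) (F : IndM U X) (x : G ⧸ U) :
    coeff U x (g • F) = g • coeff U (g⁻¹ • x) F := by
  classical
  induction F using IndM.induction_on with
  | h0 => rw [smul_zero, map_zero, map_zero, smul_zero]
  | hadd F F' hF hF' => rw [smul_add, map_add, map_add, hF, hF', smul_add]
  | hsingle y a =>
    rw [IndM.smul_single, coeff_single, coeff_single]
    by_cases h : g • y = x
    · have h' : y = g⁻¹ • x := by rw [← h, inv_smul_smul]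
      rw [if_pos h, if_pos h']
    · have h' : ¬ y = g⁻¹ • x := fun h' => h (by rw [h', smul_inv_smul])
      rw [if_neg h, if_neg h', smul_zero]

/-- an element of `Ind_U Y` all of whose coefficients are in the image of `φ` is in the image
of `Ind_U φ` -/
lemma exists_map_eq (φ : X →+ Y) (F : IndM U Y) (hF : ∀ x, ∃ a : X, φ a = coeff U x F) :
    ∃ F' : IndM U X, IndM.map U φ F' = F := by
  classical
  choose s hs using hF
  refine ⟨IndM.ofF U (Finsupp.onFinset (IndM.toF U F).support
    (fun x => if IndM.toF U F x = 0 then 0 else s x) (fun x hx => ?_)), ?_⟩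
  · rw [Finsupp.mem_support_iff]
    intro h0
    exact hx (by rw [if_pos h0])
  · apply Finsupp.ext
    intro x
    show φ (if IndM.toF U F x = 0 then 0 else s x) = IndM.toF U F x
    split_ifs with h0
    · rw [map_zero, h0]
    · exact hs x

/-- the element of `Ind_U X` with prescribed coefficients (finite index) -/
def ofFun [Finite (G ⧸ U)] (f : G ⧸ U → X) : IndM U X :=
  IndM.ofF U (Finsupp.equivFunOnFinite.symm f)

lemma coeff_ofFun [Finite (G ⧸ U)] (f : G ⧸ U → X) (x : G ⧸ U) : coeff U x (ofFun U f) = f x :=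
  rfl

variable {U} in
lemma coeff_le [Fintype (G ⧸ U)] {V : Subgroup G} [DecidableEq (G ⧸ V)] (h : U ≤ V)
    (F : IndM U X) (y : G ⧸ V) :
    coeff V y (IndM.le h F) =
      ∑ σ ∈ Finset.univ.filter (fun σ : G ⧸ U => Subgroup.quotientMapOfLE h σ = y),
        coeff U σ F := by
  classical
  induction F using IndM.induction_on with
  | h0 =>
    rw [map_zero, map_zero]
    exact (Finset.sum_eq_zero fun σ _ => map_zero _).symm
  | hadd F F' hF hF' =>
    rw [map_add, map_add, hF, hF', ← Finset.sum_add_distrib]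
    exact Finset.sum_congr rfl fun σ _ => (map_add _ _ _).symm
  | hsingle x a =>
    rw [IndM.le_single, coeff_single]
    simp_rw [coeff_single]
    rw [Finset.sum_ite_eq]
    simp only [Finset.mem_filter, Finset.mem_univ, true_and]

end Coeff

/-! ### the dictionary `𝕁^{U_L} = ∏_{q ∈ S} J_q(L)` -/

variable {S : Finset Nat.Primes}

/-- `J(L) = ∏_{q ∈ S} J_q(L)` -/
abbrev JS (L : Level S) : Type := ∀ q : S, (L.J q.1).V

lemma mk_mul_mem (L : Level S) (g u : Tow.GQ) (hu : u ∈ L.U) :
    (QuotientGroup.mk (g * u) : L.Gal) = QuotientGroup.mk g := by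
  rw [QuotientGroup.eq]
  have : (g * u)⁻¹ * g = u⁻¹ := by group
  rw [this]
  exact L.U.inv_mem hu

lemma mk_mem_mul (L : Level S) (g u : Tow.GQ) (hu : u ∈ L.U) :
    (QuotientGroup.mk (u * g) : L.Gal) = QuotientGroup.mk g := by
  have h1 : u * g = g * (g⁻¹ * u * g) := by group
  rw [h1]
  exact mk_mul_mem L g _ (Level.conj_mem_U' S L hu g)

/-- inflation `J_q(L) → 𝕁_q` -/
def toJJq (L : Level S) (q : Nat.Primes) : (L.J q).V →+ JJ S q where
  toFun f := JJ.mk S q (fun g => L.locCoe q (L.Jeval q f (QuotientGroup.mk g)))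
    (fun d g => by
      show L.locCoe q (L.Jeval q f (L.decHom q (QuotientGroup.mk d) * QuotientGroup.mk g)) = _
      rw [L.Jeval_mul]
      rfl)
    ⟨L, fun u hu g => by rw [mk_mul_mem L g u hu]⟩
  map_zero' := by
    apply JJ.ext
    intro g
    rfl
  map_add' f f' := by
    apply JJ.ext
    intro g
    rfl

@[simp] lemma ev_toJJq (L : Level S) (q : Nat.Primes) (f : (L.J q).V) (g : Tow.GQ) :
    JJ.ev S q g (toJJq L q f) = L.locCoe q (L.Jeval q f (QuotientGroup.mk g)) := rfl

lemma toJJq_injective (L : Level S) (q : Nat.Primes) : Function.Injective (toJJq L q) := by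
  intro f f' h
  apply L.J_ext q
  intro g
  induction g using QuotientGroup.induction_on with
  | H g =>
    apply L.locCoe_injective q
    exact congrArg (JJ.ev S q g) h

lemma toJJq_ρ (L : Level S) (q : Nat.Primes) (γ : Tow.GQ) (f : (L.J q).V) :
    toJJq L q ((L.J q).ρ (QuotientGroup.mk γ) f) = γ • toJJq L q f := by
  apply JJ.ext
  intro g
  rw [JJ.ev_smul, ev_toJJq, ev_toJJq, L.Jeval_ρ]
  rfl

lemma toJJq_tr {L L' : Level S} (h : L ≤ L') (q : Nat.Primes) (f : (L.J q).V) :
    toJJq L' q ((Level.trJ h q).hom f) = toJJq L q f := by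
  apply JJ.ext
  intro g
  rfl

/-- an element of `𝕁_q` fixed by `U_L` comes from `J_q(L)` -/
lemma exists_toJJq_eq (L : Level S) (q : Nat.Primes) (x : JJ S q)
    (hx : ∀ u ∈ L.U, u • x = x) : ∃ f : (L.J q).V, toJJq L q f = x := by
  have hinv : ∀ (g u : Tow.GQ), u ∈ L.U → JJ.ev S q (g * u) x = JJ.ev S q g x := by
    intro g u hu
    have := congrArg (JJ.ev S q g) (hx u hu)
    rwa [JJ.ev_smul] at this
  have hfix : ∀ (g : Tow.GQ) (d : GQp q), d ∈ L.V q →
      (unitsQpbar q).ρ d (JJ.ev S q g x) = JJ.ev S q g x := by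
    intro g d hd
    rw [← JJ.ev_mul_left]
    have h1 : locQ q d * g = g * (g⁻¹ * locQ q d * g) := by group
    rw [h1]
    exact hinv g _ (Level.conj_mem_U' S L hd g)
  let F : L.Gal → (L.locUnits q).V := fun σ =>
    Quotient.liftOn' σ (fun g => L.locMk q (JJ.ev S q g x) (hfix g)) (fun a b hab => by
      apply L.locCoe_injective q
      show JJ.ev S q a x = JJ.ev S q b x
      have hab' : a⁻¹ * b ∈ L.U := QuotientGroup.leftRel_apply.mp hab
      have := hinv a _ hab'
      rw [mul_inv_cancel_left] at this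
      exact this.symm)
  have hF : ∀ g : Tow.GQ, L.locCoe q (F (QuotientGroup.mk g)) = JJ.ev S q g x := fun g => rfl
  refine ⟨⟨F, fun d σ => ?_⟩, ?_⟩
  · induction d using QuotientGroup.induction_on with
    | H d =>
      induction σ using QuotientGroup.induction_on with
      | H g =>
        apply L.locCoe_injective q
        show L.locCoe q (F (QuotientGroup.mk (locQ q d * g))) = _
        rw [hF, JJ.ev_mul_left]
        rfl
  · apply JJ.ext
    intro g
    rfl

/-- inflation `J(L) → 𝕁` -/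
def toJJ (L : Level S) : JS L →+ JJS S :=
  AddMonoidHom.mk' (fun f q => toJJq L q.1 (f q)) (fun f f' => by
    funext q
    exact map_add (toJJq L q.1) (f q) (f' q))

@[simp] lemma proj_toJJ (L : Level S) (q : ↥S) (f : JS L) :
    JJS.proj S q (toJJ L f) = toJJq L q.1 (f q) := rfl

lemma toJJ_injective (L : Level S) : Function.Injective (toJJ L) := by
  intro f f' h
  funext q
  exact toJJq_injective L q.1 (congrArg (JJS.proj S q) h)

/-- the action of `σ ∈ Gal(L/ℚ)` on `J(L)` -/
def actJS (L : Level S) (σ : L.Gal) : JS L →+ JS L :=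
  AddMonoidHom.mk' (fun f q => (L.J q.1).ρ σ (f q)) (fun f f' => by
    funext q
    exact map_add ((L.J q.1).ρ σ) (f q) (f' q))

@[simp] lemma actJS_apply (L : Level S) (σ : L.Gal) (f : JS L) (q : ↥S) :
    actJS L σ f q = (L.J q.1).ρ σ (f q) := rfl

lemma toJJ_act (L : Level S) (γ : Tow.GQ) (f : JS L) :
    toJJ L (actJS L (QuotientGroup.mk γ) f) = γ • toJJ L f :=
  JJS.ext S fun q => toJJq_ρ L q.1 γ (f q)

/-- the transition map `J(L) → J(L')` -/
def trJS {L L' : Level S} (h : L ≤ L') : JS L →+ JS L' :=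
  AddMonoidHom.mk' (fun f q => (Level.trJ h q.1).hom (f q)) (fun f f' => by
    funext q
    exact map_add (Level.trJ h q.1).hom (f q) (f' q))

@[simp] lemma trJS_apply {L L' : Level S} (h : L ≤ L') (f : JS L) (q : ↥S) :
    trJS h f q = (Level.trJ h q.1).hom (f q) := rfl

lemma toJJ_tr {L L' : Level S} (h : L ≤ L') (f : JS L) : toJJ L' (trJS h f) = toJJ L f :=
  JJS.ext S fun q => toJJq_tr h q.1 (f q)

lemma trJS_act {L L' : Level S} (h : L ≤ L') (γ : Tow.GQ) (f : JS L) :
    trJS h (actJS L (QuotientGroup.mk γ) f) = actJS L' (QuotientGroup.mk γ) (trJS h f) := by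
  apply toJJ_injective L'
  rw [toJJ_tr, toJJ_act, toJJ_act, toJJ_tr]

/-- an element of `𝕁` fixed by `U_L` comes from `J(L)` -/
lemma exists_toJJ_eq (L : Level S) (x : JJS S) (hx : ∀ u ∈ L.U, u • x = x) :
    ∃ f : JS L, toJJ L f = x := by
  have h : ∀ q : ↥S, ∃ f : (L.J q.1).V, toJJq L q.1 f = JJS.proj S q x := fun q =>
    exists_toJJq_eq L q.1 _ (fun u hu => by rw [← JJS.proj_smul, hx u hu])
  choose f hf using h
  exact ⟨f, JJS.ext S hf⟩

/-! ### the dictionary for `S`-units -/

/-- the element of `𝔼` given by an `S`-unit of level `L` -/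
def suOf (L : Level S) (e : L.units.V) (he : L.IsSUnit e) : SU S :=
  SU.mk S (L.unitsCoe e) he ⟨L, fun g hg => L.unitsCoe_fixed e g hg⟩

@[simp] lemma val_suOf (L : Level S) (e : L.units.V) (he : L.IsSUnit e) :
    SU.val S (suOf L e he) = L.unitsCoe e := rfl

/-- the diagonal of `J(L)` -/
def diagJS (L : Level S) (e : L.units.V) : JS L := fun q => (L.diag q.1).hom e

lemma toJJ_diag (L : Level S) (e : L.units.V) (he : L.IsSUnit e) :
    toJJ L (diagJS L e) = iEJ S (suOf L e he) := by
  apply JJS.ext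
  intro q
  apply JJ.ext
  intro g
  rfl

/-- an element of `𝔼` fixed by `U_L` is an `S`-unit of level `L` -/
lemma exists_suOf_eq (L : Level S) (x : SU S) (hx : ∀ u ∈ L.U, u • x = x) :
    ∃ (e : L.units.V) (he : L.IsSUnit e), suOf L e he = x := by
  refine ⟨L.unitsMk (SU.val S x) (fun g hg => ?_), SU.isSUq S x, ?_⟩
  · have := congrArg (SU.val S) (hx g hg)
    rwa [SU.val_smul] at this
  · apply SU.ext
    rfl

/-! ### the map `J(L) → C(L)` of a tower datum -/

section Datum

variable (D : TowerDatum S)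

/-- `j = ∑_q j_q : J(L) → C(L)` -/
def jSum (L : Level S) : JS L →+ (D.C L).V where
  toFun f := ∑ q : S, (D.j L q.1).hom (f q)
  map_zero' := by
    refine Finset.sum_eq_zero fun q _ => ?_
    exact map_zero (D.j L q.1).hom
  map_add' f f' := by
    rw [← Finset.sum_add_distrib]
    refine Finset.sum_congr rfl fun q _ => ?_
    exact map_add (D.j L q.1).hom (f q) (f' q)

lemma jSum_apply (L : Level S) (f : JS L) : jSum D L f = ∑ q : S, (D.j L q.1).hom (f q) := rfl

lemma isLocalSum_iff (L : Level S) (c : (D.C L).V) :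
    D.IsLocalSum L c ↔ ∃ f : JS L, c = jSum D L f := Iff.rfl

lemma jSum_act (L : Level S) (σ : L.Gal) (f : JS L) :
    jSum D L (actJS L σ f) = (D.C L).ρ σ (jSum D L f) := by
  rw [jSum_apply, jSum_apply, map_sum]
  refine Finset.sum_congr rfl fun q _ => ?_
  exact Rep.hom_comm_apply (D.j L q.1) σ (f q)

lemma tr_ρ {L L' : Level S} (h : L ≤ L') (σ : L'.Gal) (c : (D.C L).V) :
    (D.tr h).hom ((D.C L).ρ (Level.proj h σ) c) = (D.C L').ρ σ ((D.tr h).hom c) :=
  Rep.hom_comm_apply (D.tr h) σ c

lemma tr_add {L L' : Level S} (h : L ≤ L') (c c' : (D.C L).V) :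
    (D.tr h).hom (c + c') = (D.tr h).hom c + (D.tr h).hom c' :=
  map_add (D.tr h).hom c c'

lemma tr_nsmul {L L' : Level S} (h : L ≤ L') (n : ℕ) (c : (D.C L).V) :
    (D.tr h).hom (n • c) = n • (D.tr h).hom c :=
  map_nsmul (D.tr h).hom n c

lemma tr_sub {L L' : Level S} (h : L ≤ L') (c c' : (D.C L).V) :
    (D.tr h).hom (c - c') = (D.tr h).hom c - (D.tr h).hom c' :=
  map_sub (D.tr h).hom c c'

lemma tr_zero {L L' : Level S} (h : L ≤ L') : (D.tr h).hom (0 : (D.C L).V) = 0 :=
  map_zero (D.tr h).hom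

lemma tr_sum {L L' : Level S} (h : L ≤ L') {ι : Type} (s : Finset ι) (c : ι → (D.C L).V) :
    (D.tr h).hom (∑ i ∈ s, c i) = ∑ i ∈ s, (D.tr h).hom (c i) :=
  map_sum (D.tr h).hom c s

variable {D} {p : ℕ}

lemma jSum_tr (hD : D.IsGoodMu p) {L L' : Level S} (h : L ≤ L') (f : JS L) :
    jSum D L' (trJS h f) = (D.tr h).hom (jSum D L f) := by
  rw [jSum_apply, jSum_apply, tr_sum]
  refine Finset.sum_congr rfl fun q _ => ?_
  exact (hD.gd7a h q.1 q.2 (f q)).symm

lemma jSum_eq_zero_iff (hD : D.IsGoodMu p) (L : Level S) (f : JS L) :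
    jSum D L f = 0 ↔ ∃ e : L.units.V, L.IsSUnit e ∧ f = diagJS L e := by
  rw [jSum_apply, hD.gd4 L f]
  constructor
  · rintro ⟨e, he, h⟩
    exact ⟨e, he, funext h⟩
  · rintro ⟨e, he, h⟩
    exact ⟨e, he, fun q => congrFun h q⟩

/-- if `j(f) = 0` then the inflation of `f` to `𝕁` is a diagonal `S`-unit -/
lemma exists_iEJ_eq_of_jSum_eq_zero (hD : D.IsGoodMu p) (L : Level S) (f : JS L)
    (hf : jSum D L f = 0) : ∃ e : SU S, iEJ S e = toJJ L f := by
  obtain ⟨e, he, rfl⟩ := (jSum_eq_zero_iff hD L f).1 hf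
  exact ⟨suOf L e he, (toJJ_diag L e he).symm⟩

/-- if the inflation of `f` to `𝕁` is a diagonal `S`-unit then `j(f) = 0` (`S ≠ ∅`) -/
lemma jSum_eq_zero_of_toJJ_eq (hD : D.IsGoodMu p) (hS : S.Nonempty) (L : Level S) (f : JS L)
    (e : SU S) (he : iEJ S e = toJJ L f) : jSum D L f = 0 := by
  have hfix : ∀ u ∈ L.U, u • e = e := by
    intro u hu
    apply iEJ_injective S hS
    rw [iEJ_smul, he, ← toJJ_act]
    have h1 : (QuotientGroup.mk u : L.Gal) = 1 := (QuotientGroup.eq_one_iff u).2 hu
    rw [h1]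
    congr 1
    funext q
    show (L.J q.1).ρ 1 (f q) = f q
    rw [map_one]
    rfl
  obtain ⟨e', he', rfl⟩ := exists_suOf_eq L e hfix
  rw [jSum_eq_zero_iff hD]
  refine ⟨e', he', ?_⟩
  apply toJJ_injective L
  rw [toJJ_diag L e' he', he]

end Datum

end Fermat.Agent.S55.Cap.H713
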