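import Fermat.Agent.S55.Cap.C2H713.Dict

/-!
# S55 / A8 (CAP), leaf A8-C2 (helper713) : `c2Adapter : C2AdapterSpec p S`

Existence theorem mod `p` in cochain form, from a good tower datum with GD11 (`ClTorsion`) and
GD12 (`Descent`): blueprint `coord/S55-K-A8.md` §4.4.
-/

set_option autoImplicit false
set_option linter.unusedVariables false
set_option linter.unusedSectionVars false
set_option linter.style.haveILetI false

noncomputable section

namespace Fermat.Agent.S55.Cap.H713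

open Fermat.Agent.S55.PT Fermat.Agent.S55.Tow Fermat.Agent.S55.Cap

variable {S : Finset Nat.Primes} {p : ℕ}

/-! ### group theory in the tower -/

lemma proj_eq_quotientMapOfLE {L L' : Level S} (h : L ≤ L') (σ : L'.Gal) :
    Level.proj h σ = Subgroup.quotientMapOfLE (Level.U_anti h) σ := by
  induction σ using QuotientGroup.induction_on with
  | H g => rfl

lemma mk_mem_relGal {L L' : Level S} (h : L ≤ L') {u : Tow.GQ} (hu : u ∈ L.U) :
    (QuotientGroup.mk u : L'.Gal) ∈ Level.relGal h := by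
  show Level.proj h (QuotientGroup.mk u) = 1
  rw [Level.proj_mk]
  exact (QuotientGroup.eq_one_iff u).2 hu

lemma exists_mk_of_mem_relGal {L L' : Level S} (h : L ≤ L') {σ : L'.Gal}
    (hσ : σ ∈ Level.relGal h) : ∃ u ∈ L.U, (QuotientGroup.mk u : L'.Gal) = σ := by
  induction σ using QuotientGroup.induction_on with
  | H g =>
    refine ⟨g, ?_, rfl⟩
    have h1 : Level.proj h (QuotientGroup.mk g) = 1 := hσ
    rw [Level.proj_mk] at h1
    exact (QuotientGroup.eq_one_iff g).1 h1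

/-- the sum over a fibre of `Gal(L₁/ℚ) → Gal(L₀/ℚ)` is a translate of the relative norm -/
lemma sum_fiber (D : TowerDatum S) {L₀ L₁ : Level S} (h : L₀ ≤ L₁) [Fintype L₁.Gal]
    [DecidableEq L₀.Gal] [Fintype (Level.relGal h)] (τ : L₁.Gal) (c : (D.C L₁).V) :
    ∑ σ ∈ Finset.univ.filter (fun σ : L₁.Gal => Level.proj h σ = Level.proj h τ),
        (D.C L₁).ρ σ c =
      (D.C L₁).ρ τ (∑ h' : Level.relGal h, (D.C L₁).ρ (h' : L₁.Gal) c) := by
  classical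
  rw [map_sum]
  rw [Finset.sum_subtype (p := fun σ : L₁.Gal => Level.proj h σ = Level.proj h τ)
    (Finset.univ.filter (fun σ : L₁.Gal => Level.proj h σ = Level.proj h τ))
    (fun σ => by simp) (fun σ => (D.C L₁).ρ σ c)]
  symm
  let e : Level.relGal h ≃ {σ : L₁.Gal // Level.proj h σ = Level.proj h τ} :=
    { toFun := fun h' => ⟨τ * h', by rw [map_mul, show Level.proj h (h' : L₁.Gal) = 1 from h'.2,
        mul_one]⟩
      invFun := fun σ => ⟨τ⁻¹ * σ, by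
        show Level.proj h (τ⁻¹ * σ) = 1
        rw [map_mul, map_inv, σ.2, inv_mul_cancel]⟩
      left_inv := fun h' => Subtype.ext (by simp)
      right_inv := fun σ => Subtype.ext (by simp) }
  refine Fintype.sum_equiv e _ _ (fun h' => ?_)
  show (D.C L₁).ρ τ ((D.C L₁).ρ (h' : L₁.Gal) c) = (D.C L₁).ρ (τ * h') c
  rw [map_mul]
  rfl

/-! ### Shapiro in degree `0` -/

section Shapiro

variable (L₁ : Level S) (q : IndM L₁.U (JJS S))
  (hq : ∀ g : Tow.GQ, ∃ e : IndM L₁.U (SU S), IndM.map L₁.U (iEJ S) e = g • q - q)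

include hq in
/-- the coefficients of an invariant class are the translates of the coefficient at `1` -/
lemma exists_coeff_eq (g : Tow.GQ) :
    ∃ e : SU S, iEJ S e =
      g • coeff L₁.U (QuotientGroup.mk 1) q - coeff L₁.U (QuotientGroup.mk g) q := by
  obtain ⟨e, he⟩ := hq g
  refine ⟨coeff L₁.U (QuotientGroup.mk g) e, ?_⟩
  rw [← coeff_map, he, map_sub, coeff_smul]
  have h1 : g⁻¹ • (QuotientGroup.mk g : Tow.GQ ⧸ L₁.U) = QuotientGroup.mk 1 := by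
    show (QuotientGroup.mk (g⁻¹ * g) : Tow.GQ ⧸ L₁.U) = QuotientGroup.mk 1
    rw [inv_mul_cancel]
  rw [h1]

include hq in
lemma exists_fixed_eq (u : Tow.GQ) (hu : u ∈ L₁.U) :
    ∃ e : SU S, iEJ S e =
      u • coeff L₁.U (QuotientGroup.mk 1) q - coeff L₁.U (QuotientGroup.mk 1) q := by
  obtain ⟨e, he⟩ := exists_coeff_eq L₁ q hq u
  have h1 : (QuotientGroup.mk u : Tow.GQ ⧸ L₁.U) = QuotientGroup.mk 1 := by
    rw [QuotientGroup.eq]
    simpa using L₁.U.inv_mem hu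
  rw [h1] at he
  exact ⟨e, he⟩

end Shapiro

/-! ### invariance -/

section Invariance

variable {D : TowerDatum S} (hD : D.IsGoodMu p) (hS : S.Nonempty)

include hD hS in
/-- if `u x − x` is a diagonal `S`-unit for `u ∈ U₁` then `j(x)` is `Gal(L/L₁)`-invariant -/
lemma jSum_invariant {L₁ L : Level S} (h : L₁ ≤ L) (f : JS L)
    (hf : ∀ u ∈ L₁.U, ∃ e : SU S, iEJ S e = u • toJJ L f - toJJ L f)
    (σ : L.Gal) (hσ : σ ∈ Level.relGal h) : (D.C L).ρ σ (jSum D L f) = jSum D L f := by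
  obtain ⟨u, hu, rfl⟩ := exists_mk_of_mem_relGal h hσ
  obtain ⟨e, he⟩ := hf u hu
  have h0 : jSum D L (actJS L (QuotientGroup.mk u) f - f) = 0 := by
    apply jSum_eq_zero_of_toJJ_eq hD hS L _ e
    rw [he, map_sub, toJJ_act]
  rw [map_sub, jSum_act, sub_eq_zero] at h0
  exact h0

include hD in
/-- if `j(y)` is the transfer of a `Gal(L₁/L₀)`-invariant class then `u y − y` is a diagonal
`S`-unit for `u ∈ U₀` -/
lemma exists_iEJ_eq_of_invariant {L₀ L₁ L₃ : Level S} (h₀₁ : L₀ ≤ L₁) (h₁₃ : L₁ ≤ L₃)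
    (c : (D.C L₁).V) (hc : ∀ σ ∈ Level.relGal h₀₁, (D.C L₁).ρ σ c = c)
    (y : JS L₃) (hy : (D.tr h₁₃).hom c = jSum D L₃ y) (u : Tow.GQ) (hu : u ∈ L₀.U) :
    ∃ e : SU S, iEJ S e = u • toJJ L₃ y - toJJ L₃ y := by
  have h0 : jSum D L₃ (actJS L₃ (QuotientGroup.mk u) y - y) = 0 := by
    rw [map_sub, jSum_act, ← hy, sub_eq_zero]
    have h1 := tr_ρ D h₁₃ (QuotientGroup.mk u) c
    rw [Level.proj_mk] at h1
    rw [← h1, hc _ (mk_mem_relGal h₀₁ hu)]
  obtain ⟨e, he⟩ := exists_iEJ_eq_of_jSum_eq_zero hD L₃ _ h0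
  refine ⟨e, ?_⟩
  rw [he, map_sub, toJJ_act]

end Invariance

/-! ### the element `q₂` -/

section Q2

variable (L₀ : Level S) (x : JJS S)

/-- `q₂ = ∑_{y ∈ Γ/U₀} single y (s(y) x)` for the section `s = Quotient.out` -/
def spread : IndM L₀.U (JJS S) := ofFun L₀.U (fun y => (Quotient.out y : Tow.GQ) • x)

lemma coeff_spread (y : Tow.GQ ⧸ L₀.U) :
    coeff L₀.U y (spread L₀ x) = (Quotient.out y : Tow.GQ) • x := rfl

lemma exists_spread_eq (hx : ∀ u ∈ L₀.U, ∃ e : SU S, iEJ S e = u • x - x) (g : Tow.GQ) :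
    ∃ e : IndM L₀.U (SU S), IndM.map L₀.U (iEJ S) e = g • spread L₀ x - spread L₀ x := by
  apply exists_map_eq
  intro y
  rw [map_sub, coeff_smul, coeff_spread, coeff_spread]
  set a : Tow.GQ := g * (Quotient.out (g⁻¹ • y) : Tow.GQ) with ha
  set b : Tow.GQ := (Quotient.out y : Tow.GQ) with hb
  have hab : (QuotientGroup.mk a : Tow.GQ ⧸ L₀.U) = QuotientGroup.mk b := by
    have h1 : (QuotientGroup.mk a : Tow.GQ ⧸ L₀.U) =
        g • (QuotientGroup.mk (Quotient.out (g⁻¹ • y) : Tow.GQ) : Tow.GQ ⧸ L₀.U) := rfl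
    rw [h1, QuotientGroup.out_eq', smul_inv_smul, hb, QuotientGroup.out_eq']
  have hu : b⁻¹ * a ∈ L₀.U := QuotientGroup.eq.1 hab.symm
  obtain ⟨e, he⟩ := hx _ hu
  refine ⟨b • e, ?_⟩
  rw [iEJ_smul, he, smul_sub, ← mul_smul, ← mul_smul, mul_inv_cancel_left]

end Q2

/-! ### the core computation -/

section Core

variable {D : TowerDatum S} (hD : D.IsGoodMu p)

include hD in
/-- **Core.**  `n ∑_{σ ↦ y} s(σ) x₁ − p s(y) y₂` is a diagonal `S`-unit. -/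
lemma exists_iEJ_eq_core {L₀ L₁ L L₂ L₃ : Level S} (h₀₁ : L₀ ≤ L₁) (h₁ : L₁ ≤ L)
    (h₂ : L ≤ L₂) (h₁₃ : L₁ ≤ L₃)
    [Fintype L₁.Gal] [DecidableEq L₀.Gal] [Fintype (Level.relGal h₀₁)]
    (x₁ : JS L) (c₁ c₀ : (D.C L₁).V)
    (hdesc : (D.tr h₂).hom (jSum D L x₁) = (D.tr (h₁.trans h₂)).hom c₁)
    (hnorm : ∑ h' : Level.relGal h₀₁, (D.C L₁).ρ (h' : L₁.Gal) c₁ = p • c₀)
    (n : ℕ) (y₂ : JS L₃) (hy₂ : (D.tr h₁₃).hom (n • c₀) = jSum D L₃ y₂)
    (y : L₀.Gal) :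
    ∃ e : SU S, iEJ S e =
      n • ∑ σ ∈ Finset.univ.filter
          (fun σ : L₁.Gal => Subgroup.quotientMapOfLE (Level.U_anti h₀₁) σ = y),
          (Quotient.out σ : Tow.GQ) • toJJ L x₁
        - p • ((Quotient.out y : Tow.GQ) • toJJ L₃ y₂) := by
  classical
  -- a common level
  set L₄ : Level S := capSup S L₂ L₃ with hL₄
  have h₂₄ : L₂ ≤ L₄ := le_capSup_left S L₂ L₃
  have h₃₄ : L₃ ≤ L₄ := le_capSup_right S L₂ L₃
  have h₄ : L ≤ L₄ := h₂.trans h₂₄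
  have h₁₄ : L₁ ≤ L₄ := h₁.trans h₄
  set X₁ : JS L₄ := trJS h₄ x₁ with hX₁
  set Y₂ : JS L₄ := trJS h₃₄ y₂ with hY₂
  set τ : L₁.Gal := QuotientGroup.mk (Quotient.out y : Tow.GQ) with hτ
  have hτy : Level.proj h₀₁ τ = y := by
    rw [hτ, Level.proj_mk]
    exact QuotientGroup.out_eq' y
  set W : JS L₄ :=
    n • ∑ σ ∈ Finset.univ.filter
        (fun σ : L₁.Gal => Subgroup.quotientMapOfLE (Level.U_anti h₀₁) σ = y),
        actJS L₄ (QuotientGroup.mk (Quotient.out σ : Tow.GQ)) X₁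
      - p • actJS L₄ (QuotientGroup.mk (Quotient.out y : Tow.GQ)) Y₂ with hW
  have htoJJ : toJJ L₄ W =
      n • ∑ σ ∈ Finset.univ.filter
          (fun σ : L₁.Gal => Subgroup.quotientMapOfLE (Level.U_anti h₀₁) σ = y),
          (Quotient.out σ : Tow.GQ) • toJJ L x₁
        - p • ((Quotient.out y : Tow.GQ) • toJJ L₃ y₂) := by
    rw [hW, map_sub, map_nsmul, map_nsmul, map_sum, toJJ_act, hY₂, toJJ_tr]
    congr 2
  -- `j(X₁)` and `j(Y₂)`
  have hjX : jSum D L₄ X₁ = (D.tr h₁₄).hom c₁ := by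
    rw [hX₁, jSum_tr hD, ← hD.gd7b h₂ h₂₄, hdesc, hD.gd7b]
  have hjY : jSum D L₄ Y₂ = (D.tr h₁₄).hom (n • c₀) := by
    rw [hY₂, jSum_tr hD, ← hy₂, hD.gd7b]
  have hact : ∀ (g : Tow.GQ) (c : (D.C L₁).V),
      (D.C L₄).ρ (QuotientGroup.mk g) ((D.tr h₁₄).hom c) =
        (D.tr h₁₄).hom ((D.C L₁).ρ (QuotientGroup.mk g) c) := by
    intro g c
    have := tr_ρ D h₁₄ (QuotientGroup.mk g) c
    rw [Level.proj_mk] at this
    exact this.symm
  have hjW : jSum D L₄ W = 0 := by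
    rw [hW, map_sub, map_nsmul, map_nsmul, map_sum, jSum_act, hjY, hact]
    have h1 : ∀ σ ∈ Finset.univ.filter
        (fun σ : L₁.Gal => Subgroup.quotientMapOfLE (Level.U_anti h₀₁) σ = y),
        jSum D L₄ (actJS L₄ (QuotientGroup.mk (Quotient.out σ : Tow.GQ)) X₁) =
          (D.tr h₁₄).hom ((D.C L₁).ρ σ c₁) := by
      intro σ _
      rw [jSum_act, hjX, hact, QuotientGroup.out_eq']
    rw [Finset.sum_congr rfl h1, ← tr_sum, ← tr_nsmul, ← tr_nsmul, ← tr_sub]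
    have h2 : (Finset.univ.filter
        (fun σ : L₁.Gal => Subgroup.quotientMapOfLE (Level.U_anti h₀₁) σ = y)) =
        Finset.univ.filter (fun σ : L₁.Gal => Level.proj h₀₁ σ = Level.proj h₀₁ τ) := by
      ext σ
      simp only [Finset.mem_filter, Finset.mem_univ, true_and]
      rw [hτy, proj_eq_quotientMapOfLE]
    rw [h2, sum_fiber D h₀₁ τ c₁, hnorm, ← hτ]
    have h3 : n • (D.C L₁).ρ τ (p • c₀) - p • (D.C L₁).ρ τ (n • c₀) = 0 := by
      rw [map_nsmul, map_nsmul, smul_comm, sub_self]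
    rw [h3, tr_zero]
  obtain ⟨e, he⟩ := exists_iEJ_eq_of_jSum_eq_zero hD L₄ W hjW
  exact ⟨e, he.trans htoJJ⟩

end Core

/-! ### the theorem -/

/-- for `S = ∅` the module `𝕁` is trivial -/
lemma subsingleton_indM_of_isEmpty (hS : ¬ S.Nonempty) (L : Level S) :
    Subsingleton (IndM L.U (JJS S)) := by
  haveI : IsEmpty ↥S := by
    refine ⟨fun q => hS ⟨q.1, q.2⟩⟩
  haveI : Subsingleton (JJS S) := ⟨fun x y => funext fun q => isEmptyElim q⟩
  exact ⟨fun F F' => Finsupp.ext fun x => Subsingleton.elim _ _⟩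

/-- **A8-C2.**  The existence theorem mod `p` in cochain form, from a good tower datum with
GD11 and GD12. -/
theorem c2Adapter (p : ℕ) [hp : Fact p.Prime] (S : Finset Nat.Primes) : C2AdapterSpec p S := by
  classical
  rintro ⟨D, hD, hTors, hDesc⟩ L₀ hμ
  by_cases hS : S.Nonempty
  swap
  · refine ⟨L₀, le_rfl, fun q _ => ⟨1, 0, Nat.coprime_one_left p, fun g => ⟨0, ?_⟩, 0, ?_⟩⟩
    · haveI := subsingleton_indM_of_isEmpty hS L₀
      exact Subsingleton.elim _ _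
    · haveI := subsingleton_indM_of_isEmpty hS L₀
      exact Subsingleton.elim _ _
  obtain ⟨L₁, h₀₁, hnormIn⟩ := hD.gd6 L₀ hμ
  refine ⟨L₁, h₀₁, fun q hq => ?_⟩
  letI : Fintype L₁.Gal := Fintype.ofFinite _
  letI : Fintype (Level.relGal h₀₁) := Fintype.ofFinite _
  -- the coefficient at `1` lives at a finite level `L ≥ L₁`
  obtain ⟨Lx, hLx⟩ := JJS.smooth S (coeff L₁.U (QuotientGroup.mk 1) q)
  have h₁ : L₁ ≤ capSup S L₁ Lx := le_capSup_left S L₁ Lx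
  obtain ⟨f₁, hf₁⟩ := exists_toJJ_eq (capSup S L₁ Lx) (coeff L₁.U (QuotientGroup.mk 1) q)
    (fun u hu => hLx u (Level.U_anti (le_capSup_right S L₁ Lx) hu))
  -- its class is invariant, hence descends to `L₁`
  have hinv : ∀ σ ∈ Level.relGal h₁,
      (D.C (capSup S L₁ Lx)).ρ σ (jSum D _ f₁) = jSum D _ f₁ :=
    jSum_invariant hD hS h₁ f₁ (by
      rw [hf₁]
      exact exists_fixed_eq L₁ q hq)
  obtain ⟨L₂, h₂, c₁, hc₁⟩ := hDesc h₁ (jSum D _ f₁) hinv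
  -- the norm of `c₁` is `p c₀`
  obtain ⟨c₀, hc₀inv, hc₀⟩ := hnormIn L₁ h₀₁ le_rfl c₁
  -- a prime-to-`p` multiple of `c₀` becomes a local sum at a higher level
  obtain ⟨n₀, hn₀, hloc⟩ := hTors L₁ c₀
  obtain ⟨a, n, hpn, rfl⟩ := Nat.exists_eq_pow_mul_and_not_dvd hn₀.ne' p hp.out.ne_one
  have hloc' : D.IsLocalSum L₁ (p ^ a • (n • c₀)) := by
    rw [← mul_smul]
    exact hloc
  obtain ⟨L₃, h₁₃, y₂, hy₂⟩ := hD.gd5 L₁ (n • c₀) a hloc'
  have hy₂' : (D.tr h₁₃).hom (n • c₀) = jSum D L₃ y₂ := hy₂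
  have hnc₀inv : ∀ σ ∈ Level.relGal h₀₁, (D.C L₁).ρ σ (n • c₀) = n • c₀ := by
    intro σ hσ
    rw [map_nsmul, hc₀inv σ hσ]
  refine ⟨n, spread L₀ (toJJ L₃ y₂), ((Nat.Prime.coprime_iff_not_dvd hp.out).2 hpn).symm,
    exists_spread_eq L₀ _ (exists_iEJ_eq_of_invariant hD h₀₁ h₁₃ (n • c₀) hnc₀inv y₂ hy₂'), ?_⟩
  -- the element `ε`
  apply exists_map_eq
  intro y
  rw [map_sub, map_nsmul, map_nsmul, coeff_le, coeff_spread]
  obtain ⟨e, he⟩ := exists_iEJ_eq_core hD h₀₁ h₁ h₂ h₁₃ f₁ c₁ c₀ hc₁ hc₀ n y₂ hy₂' y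
  choose eσ heσ using fun σ : L₁.Gal => exists_coeff_eq L₁ q hq (Quotient.out σ : Tow.GQ)
  refine ⟨e - n • ∑ σ ∈ Finset.univ.filter
      (fun σ : L₁.Gal => Subgroup.quotientMapOfLE (Level.U_anti h₀₁) σ = y), eσ σ, ?_⟩
  rw [map_sub, map_nsmul, map_sum, he, hf₁]
  have h3 : ∀ σ : L₁.Gal, iEJ S (eσ σ) =
      (Quotient.out σ : Tow.GQ) • coeff L₁.U (QuotientGroup.mk 1) q - coeff L₁.U σ q := by
    intro σ
    rw [heσ σ, QuotientGroup.out_eq']
  simp_rw [h3]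
  rw [Finset.sum_sub_distrib, nsmul_sub]
  abel

end Fermat.Agent.S55.Cap.H713
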